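import Fermat.Agent.GalRep.Tate.MultFrobenius
import Fermat.Agent.GalRep.Density.Frobenius
import Fermat.Agent.GalRep.Construct.Cyclotomic
import Fermat.Agent.Hasse.Galois
import Fermat.Agent.RT.Frobenius
import Fermat.Prelude.Def_FLTPrelim_ModularRep

/-!
# The Tate module of a curve over `ℤ`: determinant and traces of Frobenius

The determinant is the cyclotomic character as soon as the image is not made of scalars, which
holds when the residual representation is irreducible, and for infinitely many primes anyway.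
-/

set_option autoImplicit false

open scoped WeierstrassCurve.Affine

noncomputable section

namespace FermatAgent.GalRep.Tate

open WeierstrassCurve WeierstrassCurve.Affine FermatAgent.Local

local notation "Qb" => AlgebraicClosure ℚ
local notation "GQ" => AlgebraicClosure ℚ ≃ₐ[ℚ] AlgebraicClosure ℚ

section Scalar

variable {R : Type*} [CommRing R]

/-- Scalar two by two matrices. -/
def IsScalarMat (M : Matrix (Fin 2) (Fin 2) R) : Prop := ∃ c : R, M = c • 1

theorem IsScalarMat.pow {M : Matrix (Fin 2) (Fin 2) R} (h : IsScalarMat M) (m : ℕ) :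
    IsScalarMat (M ^ m) := by
  obtain ⟨c, rfl⟩ := h
  exact ⟨c ^ m, by rw [smul_pow, one_pow]⟩

theorem IsScalarMat.map {S : Type*} [CommRing S] (f : R →+* S) {M : Matrix (Fin 2) (Fin 2) R}
    (h : IsScalarMat M) : IsScalarMat (f.mapMatrix M) := by
  obtain ⟨c, rfl⟩ := h
  exact ⟨f c, by ext i j; simp [Matrix.one_apply, apply_ite f]⟩

theorem isScalarMat_iff (M : Matrix (Fin 2) (Fin 2) R) :
    IsScalarMat M ↔ M 0 1 = 0 ∧ M 1 0 = 0 ∧ M 0 0 = M 1 1 := by
  constructor
  · rintro ⟨c, rfl⟩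
    simp
  · rintro ⟨h1, h2, h3⟩
    refine ⟨M 0 0, ?_⟩
    ext i j
    fin_cases i <;> fin_cases j <;> simp [h1, h2, h3]

/-- A matrix killed by `X² - a X + b` which is not scalar has trace `a` and determinant `b`. -/
theorem trace_det_of_relation [IsDomain R] {M : Matrix (Fin 2) (Fin 2) R} {a b : R}
    (h : M * M - a • M + b • 1 = 0) (hM : ¬ IsScalarMat M) : M.trace = a ∧ M.det = b := by
  have e00 := congrFun (congrFun h 0) 0
  have e01 := congrFun (congrFun h 0) 1
  have e10 := congrFun (congrFun h 1) 0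
  have e11 := congrFun (congrFun h 1) 1
  simp only [Matrix.add_apply, Matrix.sub_apply, Matrix.smul_apply, Matrix.mul_apply,
    Fin.sum_univ_two, smul_eq_mul, Matrix.one_apply_eq, Matrix.one_apply_ne (show (0 : Fin 2) ≠ 1 by decide),
    Matrix.one_apply_ne (show (1 : Fin 2) ≠ 0 by decide), Matrix.zero_apply, mul_zero, add_zero,
    mul_one] at e00 e01 e10 e11
  have ht : M 0 0 + M 1 1 = a := by
    by_contra hne
    have hne' := sub_ne_zero.2 hne
    refine hM ((isScalarMat_iff M).2 ⟨?_, ?_, ?_⟩)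
    · exact (mul_eq_zero.1 (show (M 0 0 + M 1 1 - a) * M 0 1 = 0 by
        linear_combination e01)).resolve_left hne'
    · exact (mul_eq_zero.1 (show (M 0 0 + M 1 1 - a) * M 1 0 = 0 by
        linear_combination e10)).resolve_left hne'
    · exact sub_eq_zero.1 ((mul_eq_zero.1 (show (M 0 0 + M 1 1 - a) * (M 0 0 - M 1 1) = 0 by
        linear_combination e00 - e11)).resolve_left hne')
  refine ⟨by rw [Matrix.trace_fin_two, ht], ?_⟩
  rw [Matrix.det_fin_two]
  linear_combination M 0 0 * ht - e00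

end Scalar

variable (E : WeierstrassCurve ℤ) {l : ℕ} [Fact l.Prime]
  (hΔ : (E.map (Int.castRingHom ℚ)).Δ ≠ 0)

include hΔ in
theorem intΔ_ne_zero : E.Δ ≠ 0 := fun h => hΔ (by rw [WeierstrassCurve.map_Δ, h, map_zero])

/-- Frobenius at a good prime satisfies `X² - a X + q` on the Tate module. -/
theorem tateMatHom_frobenius_relation {q : ℕ} (hq : q.Prime) (hgood : ¬ (q : ℤ) ∣ E.Δ)
    (hql : q ≠ l) {A : ValuationSubring Qb} (hA : A.LiesOverPrime q) {σ : GQ}
    (hσ : A.IsFrobeniusAt σ q) :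
    tateMatHom (p := l) hΔ σ * tateMatHom (p := l) hΔ σ -
      (E.apOfModel q : ℤ_[l]) • tateMatHom (p := l) hΔ σ + (q : ℤ_[l]) • 1 = 0 := by
  have : Fact q.Prime := ⟨hq⟩
  have h := tateMatHom_relation (p := l) hΔ σ (E.apOfModel q) (q : ℤ) fun n P hP =>
    Hasse.frobenius_smul_char E hgood hA hσ
      (fun hd => hql ((Nat.prime_dvd_prime_iff_eq hq Fact.out).1 (hq.dvd_of_dvd_pow hd))) hP
  simpa using h

omit [Fact l.Prime] in
theorem apOfModel_sq_lt {q : ℕ} (hq : q.Prime) (hgood : ¬ (q : ℤ) ∣ E.Δ) :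
    E.apOfModel q ^ 2 < 4 * (q : ℤ) := by
  have : Fact q.Prime := ⟨hq⟩
  have h : (E.reductionMod q).Δ ≠ 0 := by
    rw [WeierstrassCurve.reductionMod, WeierstrassCurve.map_Δ, eq_intCast, ne_eq,
      ZMod.intCast_zmod_eq_zero_iff_dvd]
    exact hgood
  have h1 : E.apOfModel q ^ 2 ≤ 4 * (q : ℤ) := by
    have := Hasse.trace_sq_le (W := E.reductionMod q) h
    rwa [ZMod.card] at this
  refine lt_of_le_of_ne h1 fun he => ?_
  -- `a² = 4 q` would make `q` a square
  have he' : (E.apOfModel q).natAbs ^ 2 = 4 * q := by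
    have := congrArg Int.natAbs he
    rwa [Int.natAbs_pow, Int.natAbs_mul] at this
  obtain ⟨b, hb⟩ : 2 ∣ (E.apOfModel q).natAbs :=
    Nat.prime_two.dvd_of_dvd_pow (n := 2) ⟨2 * q, by rw [he']; ring⟩
  rw [hb] at he'
  have hbq : b ^ 2 = q := by linarith [show (2 * b) ^ 2 = 4 * b ^ 2 by ring]
  exact Nat.Prime.not_prime_pow le_rfl (hbq ▸ hq : (b ^ 2).Prime)

/-- The Galois image on the Tate module is not made of scalars. -/
def HasNonscalar (l : ℕ) [Fact l.Prime] : Prop :=
  ∃ τ : GQ, ¬ IsScalarMat (tateMatHom (p := l) hΔ τ)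

/-- An irreducible residual representation is not made of scalars. -/
theorem hasNonscalar_of_irreducible (h : E.ModRepIsIrreducible l) : HasNonscalar E hΔ l := by
  suffices key : ∀ (m : ℕ), l ^ 1 = m →
      Point.GaloisRepIsIrreducible (K := Qb) ℚ (E.map (Int.castRingHom ℚ)) m →
      HasNonscalar E hΔ l from key l (pow_one l) h
  rintro m rfl ⟨-, hirr⟩
  by_contra hall
  simp only [HasNonscalar, not_exists, not_not] at hall
  have : Fact (l ^ 1).Prime := ⟨by rw [pow_one]; exact Fact.out⟩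
  set b := torBasis (p := l) hΔ 1
  have hsmul : ∀ (σ : GQ) (x : Tor (E.map (Int.castRingHom ℚ)) l 1),
      ∃ c : ZMod (l ^ 1), σ • x = c • x := by
    intro σ x
    obtain ⟨c, hc⟩ : IsScalarMat (levelMat (p := l) hΔ 1 σ) := by
      rw [← tateMatHom_toZModPow]; exact (hall σ).map _
    refine ⟨c, ?_⟩
    have : Point.galoisRepModuleEnd (K := Qb) ℚ (E.map (Int.castRingHom ℚ)) (l ^ 1) σ = c • 1 := by
      apply (LinearMap.toMatrixAlgEquiv b).injective
      rw [map_smul, map_one]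
      exact hc
    exact LinearMap.congr_fun this x
  rcases hirr (Submodule.span _ {b 0}) (fun σ x hx => by
    obtain ⟨c, hc⟩ := hsmul σ x
    rw [hc]
    exact Submodule.smul_mem _ c hx) with h0 | h0
  · rw [Submodule.span_singleton_eq_bot] at h0
    exact b.ne_zero 0 h0
  · have h1 : b 1 ∈ Submodule.span (ZMod (l ^ 1)) {b 0} := h0 ▸ Submodule.mem_top
    obtain ⟨c, hc⟩ := Submodule.mem_span_singleton.1 h1
    have := congrArg (fun v => b.repr v 1) hc
    simp at this

/-- For a negative `D` there are arbitrarily large primes modulo which `D` is not a square. -/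
theorem exists_prime_not_isSquare {D : ℤ} (hD : D < 0) (B : ℕ) :
    ∃ p : ℕ, B < p ∧ p.Prime ∧ p ≠ 2 ∧ ¬ IsSquare (D : ZMod p) := by
  set k := D.natAbs with hk
  have hk0 : 0 < k := Int.natAbs_pos.2 hD.ne
  have hDk : D = -1 * (k : ℤ) := by rw [neg_one_mul, hk, Int.ofNat_natAbs_of_nonpos hD.le, neg_neg]
  have : NeZero (4 * k) := ⟨by omega⟩
  have hu : IsUnit ((4 * k - 1 : ℕ) : ZMod (4 * k)) := by
    rw [ZMod.isUnit_iff_coprime]
    exact (Nat.coprime_self_sub_left (by omega)).2 (Nat.coprime_one_left _)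
  obtain ⟨p, hpB, hp, hpe⟩ := Nat.forall_exists_prime_gt_and_eq_mod hu (max B 2)
  have hp2 : p ≠ 2 := by omega
  refine ⟨p, lt_of_le_of_lt (le_max_left _ _) hpB, hp, hp2, ?_⟩
  have hodd : Odd p := hp.odd_of_ne_two hp2
  have hmod : p % (4 * k) = 4 * k - 1 := by
    have := congrArg ZMod.val hpe
    rwa [ZMod.val_natCast, ZMod.val_natCast, Nat.mod_eq_of_lt (show 4 * k - 1 < 4 * k by omega)]
      at this
  refine ZMod.nonsquare_of_jacobiSym_eq_neg_one ?_
  rw [jacobiSym.mod_right D hodd, ← hk, hmod, hDk, jacobiSym.mul_left]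
  have hbodd : Odd (4 * k - 1) := ⟨2 * k - 1, by omega⟩
  have h1 : jacobiSym (-1) (4 * k - 1) = -1 := by
    rw [jacobiSym.at_neg_one hbodd, ZMod.χ₄_nat_three_mod_four]
    omega
  have h2 : jacobiSym (k : ℤ) (4 * k - 1) = 1 := by
    have e : jacobiSym ((4 : ℤ) * k) (4 * k - 1) = 1 := by
      rw [jacobiSym.mod_left' (a₂ := 1) (by
        rw [show ((4 * k - 1 : ℕ) : ℤ) = 4 * k - 1 by omega]
        exact Int.ModEq.eq (Int.modEq_iff_dvd.2 ⟨-1, by ring⟩)), jacobiSym.one_left]
    rw [jacobiSym.mul_left, show (4 : ℤ) = 2 ^ 2 by norm_num, jacobiSym.sq_one' (by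
      rw [show (2 : ℤ) = ((2 : ℕ) : ℤ) from rfl, Int.gcd_natCast_natCast]
      exact (Nat.coprime_two_left.2 hbodd)), one_mul] at e
    exact e
  rw [h1, h2]
  rfl

/-- Arbitrarily large primes at which the image is not made of scalars. -/
theorem exists_hasNonscalar (B : ℕ) :
    ∃ (l : ℕ) (_ : Fact l.Prime), B < l ∧ l ≠ 2 ∧ HasNonscalar E hΔ l := by
  obtain ⟨q, hqB, hq⟩ := Nat.exists_infinite_primes (E.Δ.natAbs + 1)
  have hgood : ¬ (q : ℤ) ∣ E.Δ := fun h => by
    have := Nat.le_of_dvd (Int.natAbs_pos.2 (intΔ_ne_zero E hΔ)) (Int.natCast_dvd.1 h)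
    omega
  set a := E.apOfModel q
  obtain ⟨l, hlB, hl, hl2, hsq⟩ := exists_prime_not_isSquare
    (D := a ^ 2 - 4 * q) (by linarith [apOfModel_sq_lt E hq hgood]) (max B q)
  have : Fact l.Prime := ⟨hl⟩
  refine ⟨l, ‹_›, lt_of_le_of_lt (le_max_left _ _) hlB, hl2, ?_⟩
  obtain ⟨A, σ, hA, hσ⟩ := RT.exists_place_isFrobeniusAt hq
  refine ⟨σ, fun ⟨c, hc⟩ => hsq ?_⟩
  have h := tateMatHom_frobenius_relation E (l := l) hΔ hq hgood (by omega) hA hσ
  rw [hc] at h
  have h00 := congrFun (congrFun h 0) 0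
  simp [Matrix.one_apply_eq] at h00
  have h' := congrArg (PadicInt.toZMod (p := l)) h00
  simp only [map_add, map_sub, map_mul, map_zero, map_intCast, map_natCast] at h'
  refine ⟨2 * PadicInt.toZMod c - (a : ZMod l), ?_⟩
  push_cast
  linear_combination -4 * h'

theorem factors_levelMat_cyc (n : ℕ) :
    GaloisFactorsThroughFiniteLevel
      ((levelMat (p := l) hΔ n).prod ((PadicInt.toZModPow n).toMonoidHom.comp (cycChar l))) := by
  obtain ⟨L1, hL1, h1⟩ := Local.galoisRep_factorsThroughFiniteLevel (E.map (Int.castRingHom ℚ)) hΔ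
    (pow_ne_zero n (Fact.out : l.Prime).ne_zero)
  obtain ⟨L2, hL2, h2⟩ := exists_level_cycChar l n
  refine ⟨L1 ⊔ L2, IntermediateField.finiteDimensional_sup L1 L2, fun σ hσ => Prod.ext ?_ ?_⟩
  · show LinearMap.toMatrixAlgEquiv (torBasis hΔ n) (Point.galoisRepModuleEnd ℚ _ (l ^ n) σ) = 1
    rw [h1 σ fun x hx => hσ x (le_sup_left (b := L2) hx), map_one]
  · show PadicInt.toZModPow n (cycChar l σ) = 1
    rw [← sub_eq_zero, ← map_one (PadicInt.toZModPow (p := l) n), ← map_sub, ← RingHom.mem_ker,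
      PadicInt.ker_toZModPow, Ideal.mem_span_singleton]
    exact h2 σ fun x hx => hσ x (le_sup_right (a := L1) hx)

/-- Away from scalars the determinant is the cyclotomic character. -/
theorem det_eq_cycChar_of_not_scalar {σ : GQ} (hσ : ¬ IsScalarMat (tateMatHom (p := l) hΔ σ)) :
    (tateMatHom (p := l) hΔ σ).det = cycChar l σ := by
  obtain ⟨k, hk⟩ : ∃ k, ¬ IsScalarMat (levelMat (p := l) hΔ k σ) := by
    by_contra hall
    push Not at hall
    refine hσ ((isScalarMat_iff _).2 ⟨?_, ?_, ?_⟩) <;> rw [← PadicInt.ext_of_toZModPow] <;>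
      intro n <;> obtain ⟨h01, h10, h00⟩ := (isScalarMat_iff _).1 (hall n) <;>
      rw [← tateMatHom_toZModPow] at h01 h10 h00
    · rw [map_zero]; exact h01
    · rw [map_zero]; exact h10
    · exact h00
  have hlev : ∀ n, ¬ IsScalarMat (levelMat (p := l) hΔ n σ) →
      (levelMat (p := l) hΔ n σ).det = PadicInt.toZModPow n (cycChar l σ) := by
    intro n
    have hS : ({q : ℕ | q ∣ E.Δ.natAbs} ∪ {l}).Finite :=
      ((E.Δ.natAbs.divisors.finite_toSet).subset fun q hq => Finset.mem_coe.2 <| Nat.mem_divisors.2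
        ⟨hq, Int.natAbs_ne_zero.2 (intΔ_ne_zero E hΔ)⟩).union (Set.finite_singleton l)
    refine forall_of_frobenius _ (factors_levelMat_cyc E (l := l) hΔ n) hS
      (fun x => ¬ IsScalarMat x.1 → x.1.det = x.2) ?_ ?_ σ
    · intro x m hx hns
      show (x.1 ^ m).det = x.2 ^ m
      rw [Matrix.det_pow, hx fun h => hns (h.pow m)]
    · intro q hq hqS A hA τ hτ hns
      have hgood : ¬ (q : ℤ) ∣ E.Δ := fun h => hqS (Or.inl (Int.natCast_dvd.1 h))
      have hql : q ≠ l := fun h => hqS (Or.inr h)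
      change ¬ IsScalarMat (levelMat (p := l) hΔ n τ) at hns
      show (levelMat (p := l) hΔ n τ).det = PadicInt.toZModPow n (cycChar l τ)
      rw [cycChar_frobenius l hq hql hA hτ, ← tateMatHom_toZModPow, ← RingHom.map_det,
        (trace_det_of_relation (tateMatHom_frobenius_relation E hΔ hq hgood hql hA hτ)
          fun h => hns (by rw [← tateMatHom_toZModPow]; exact h.map _)).2]
  rw [← PadicInt.ext_of_toZModPow]
  intro n
  have hmk : ¬ IsScalarMat (levelMat (p := l) hΔ (max n k) σ) := by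
    intro h
    refine hk ?_
    rw [← tateMatHom_toZModPow] at h ⊢
    rw [← PadicInt.zmod_cast_comp_toZModPow k (max n k) (le_max_right _ _), ← RingHom.mapMatrix_comp]
    exact h.map _
  have h := congrArg (ZMod.castHom (pow_dvd_pow l (le_max_left n k)) (ZMod (l ^ n))) (hlev _ hmk)
  rw [← tateMatHom_toZModPow, ← RingHom.map_det, ← RingHom.comp_apply, ← RingHom.comp_apply,
    PadicInt.zmod_cast_comp_toZModPow n (max n k) (le_max_left _ _)] at h
  exact h

/-- The determinant of the Tate module is the cyclotomic character. -/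
theorem det_eq_cycChar (h : HasNonscalar E hΔ l) (σ : GQ) :
    (tateMatHom (p := l) hΔ σ).det = cycChar l σ := by
  by_cases hσ : IsScalarMat (tateMatHom (p := l) hΔ σ)
  swap
  · exact det_eq_cycChar_of_not_scalar E hΔ hσ
  obtain ⟨τ, hτ⟩ := h
  obtain ⟨c, hc⟩ := hσ
  have hunit : IsUnit c := by
    have h1 : tateMatHom (p := l) hΔ σ * tateMatHom (p := l) hΔ σ⁻¹ = 1 := by
      rw [← map_mul, mul_inv_cancel, map_one]
    rw [hc] at h1
    have := congrFun (congrFun h1 0) 0
    simp at this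
    exact IsUnit.of_mul_eq_one _ this
  have hprod : ¬ IsScalarMat (tateMatHom (p := l) hΔ (σ * τ)) := by
    rw [map_mul, hc, smul_mul_assoc, one_mul]
    intro hs
    refine hτ ((isScalarMat_iff _).2 ?_)
    obtain ⟨h1, h2, h3⟩ := (isScalarMat_iff _).1 hs
    simp only [Matrix.smul_apply, smul_eq_mul] at h1 h2 h3
    exact ⟨hunit.mul_right_eq_zero.1 h1, hunit.mul_right_eq_zero.1 h2, hunit.mul_left_cancel h3⟩
  have h1 := det_eq_cycChar_of_not_scalar E hΔ hprod
  rw [map_mul, map_mul, Matrix.det_mul, det_eq_cycChar_of_not_scalar E hΔ hτ] at h1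
  have hτu : IsUnit (cycChar l τ) := (Group.isUnit τ).map _
  exact hτu.mul_right_cancel h1

/-- Frobenius at a good prime: trace `a_q`, determinant `q`. -/
theorem trace_det_frobenius (h : HasNonscalar E hΔ l) {q : ℕ} (hq : q.Prime)
    (hgood : ¬ (q : ℤ) ∣ E.Δ) (hql : q ≠ l) {A : ValuationSubring Qb} (hA : A.LiesOverPrime q)
    {σ : GQ} (hσ : A.IsFrobeniusAt σ q) :
    (tateMatHom (p := l) hΔ σ).trace = (E.apOfModel q : ℤ_[l]) ∧
      (tateMatHom (p := l) hΔ σ).det = (q : ℤ_[l]) := by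
  have hrel := tateMatHom_frobenius_relation E (l := l) hΔ hq hgood hql hA hσ
  refine trace_det_of_relation hrel fun hsc => ?_
  obtain ⟨c, hc⟩ := hsc
  have hd := det_eq_cycChar E hΔ h σ
  rw [cycChar_frobenius l hq hql hA hσ, hc, Matrix.det_smul, Matrix.det_one, mul_one,
    Fintype.card_fin] at hd
  rw [hc] at hrel
  have h00 := congrFun (congrFun hrel 0) 0
  simp [Matrix.one_apply_eq] at h00
  have hq0 : (q : ℤ_[l]) ≠ 0 := by exact_mod_cast hq.ne_zero
  have hc0 : c ≠ 0 := by rintro rfl; exact hq0 (by linear_combination -hd)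
  have ha : (E.apOfModel q : ℤ_[l]) = 2 * c := by
    refine mul_right_cancel₀ hc0 ?_
    linear_combination -h00 - hd
  have h4 : ((E.apOfModel q ^ 2 : ℤ) : ℤ_[l]) = ((4 * (q : ℤ) : ℤ) : ℤ_[l]) := by
    push_cast
    rw [ha]
    linear_combination (4 : ℤ_[l]) * hd
  exact (apOfModel_sq_lt E hq hgood).ne (Int.cast_injective h4)

/-- Frobenius at a multiplicative prime: trace `± (q + 1)`, determinant `q`. -/
theorem trace_det_frobenius_of_mult (h : HasNonscalar E hΔ l) (hl2 : l ≠ 2) {q : ℕ} (hq : q.Prime)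
    (hbad : (q : ℤ) ∣ E.Δ) (hc₄ : ¬ (q : ℤ) ∣ E.c₄) (hql : q ≠ l) {A : ValuationSubring Qb}
    (hA : A.LiesOverPrime q) {σ : GQ} (hσ : A.IsFrobeniusAt σ q) :
    ((tateMatHom (p := l) hΔ σ).trace = (q : ℤ_[l]) + 1 ∨
      (tateMatHom (p := l) hΔ σ).trace = -((q : ℤ_[l]) + 1)) ∧
      (tateMatHom (p := l) hΔ σ).det = (q : ℤ_[l]) := by
  have hd : (tateMatHom (p := l) hΔ σ).det = (q : ℤ_[l]) :=
    (det_eq_cycChar E hΔ h σ).trans (cycChar_frobenius l hq hql hA hσ)
  have ht := trace_eq_of_mult E (l := l) hq hΔ hbad hc₄ hl2 hql.symm hA hσ.mem_decompositionSubgroup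
  rw [hd, add_comm] at ht
  exact ⟨ht, hd⟩

end FermatAgent.GalRep.Tate
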