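import Fermat.Agent.Local.TorsionCount

/-!
Compatible bases of the `p`-power torsion of an elliptic curve over `ℚ`, and the matrices of the
Galois action in them.
-/

set_option autoImplicit false

open scoped WeierstrassCurve.Affine

noncomputable section

namespace FermatAgent.GalRep.Tate

open WeierstrassCurve WeierstrassCurve.Affine

local notation "Qb" => AlgebraicClosure ℚ
local notation "GQ" => AlgebraicClosure ℚ ≃ₐ[ℚ] AlgebraicClosure ℚ

variable (E : WeierstrassCurve ℚ) (p : ℕ)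

/-- The points of `E` over `ℚ̄`. -/
abbrev Pt : Type := (E⁄(AlgebraicClosure ℚ)).Point

/-- The `pⁿ`-torsion, written as in the Prelude. -/
abbrev Tor (n : ℕ) : Type := Submodule.torsionBy ℤ (E⁄(AlgebraicClosure ℚ)).Point ((p ^ n : ℕ) : ℤ)

variable {E p}

theorem mem_tor_iff {n : ℕ} {P : Pt E} :
    P ∈ Submodule.torsionBy ℤ (Pt E) ((p ^ n : ℕ) : ℤ) ↔ p ^ n • P = 0 := by
  rw [Submodule.mem_torsionBy_iff, natCast_zsmul]

theorem coe_zmod_smul {n : ℕ} [NeZero (p ^ n)] (c : ZMod (p ^ n)) (x : Tor E p n) :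
    ((c • x : Tor E p n) : Pt E) = c.val • (x : Pt E) := by
  conv_lhs => rw [← ZMod.natCast_zmod_val c, Nat.cast_smul_eq_nsmul]
  exact Submodule.coe_smul_of_tower _ _

variable [Fact p.Prime] (hΔ : E.Δ ≠ 0)
include hΔ

theorem exists_nsmul_eq {n : ℕ} {P : Pt E} (hP : p ^ n • P = 0) :
    ∃ Q : Pt E, p • Q = P ∧ p ^ (n + 1) • Q = 0 := by
  have hp := (Fact.out : p.Prime)
  let f : Tor E p (n + 1) →+ Tor E p n :=
    { toFun := fun Q => ⟨p • (Q : Pt E), mem_tor_iff.mpr (by
        rw [← mul_nsmul', ← pow_succ, mem_tor_iff.mp Q.2])⟩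
      map_zero' := Subtype.ext (nsmul_zero p)
      map_add' := fun x y => Subtype.ext (nsmul_add (x : Pt E) y p) }
  have := Local.finite_torsion_qbar E hΔ (pow_ne_zero (n + 1) hp.ne_zero)
  have := Local.finite_torsion_qbar E hΔ (pow_ne_zero n hp.ne_zero)
  have := Local.finite_torsion_qbar E hΔ hp.ne_zero
  have hker : Nat.card f.ker ≤ p ^ 2 := by
    rw [← Local.card_torsion_qbar E hΔ hp.ne_zero]
    refine Nat.card_le_card_of_injective
      (fun x : f.ker => (⟨(x.1 : Pt E), by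
        rw [Submodule.mem_torsionBy_iff, natCast_zsmul]
        exact congrArg Subtype.val x.2⟩ : Submodule.torsionBy ℤ (Pt E) (p : ℤ)))
      fun a b h => by
        apply Subtype.ext
        apply Subtype.ext
        exact (congrArg Subtype.val h :)
  have hmul := f.ker.card_eq_card_quotient_mul_card_addSubgroup
  rw [Nat.card_congr (QuotientAddGroup.quotientKerEquivRange f).toEquiv,
    Local.card_torsion_qbar E hΔ (pow_ne_zero (n + 1) hp.ne_zero)] at hmul
  have hrange : Nat.card (Tor E p n) ≤ Nat.card f.range := by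
    rw [Local.card_torsion_qbar E hΔ (pow_ne_zero n hp.ne_zero)]
    refine Nat.le_of_mul_le_mul_right ?_ (pow_pos hp.pos 2)
    calc (p ^ n) ^ 2 * p ^ 2 = (p ^ (n + 1)) ^ 2 := by ring
      _ = Nat.card f.range * Nat.card f.ker := hmul
      _ ≤ Nat.card f.range * p ^ 2 := Nat.mul_le_mul_left _ hker
  obtain ⟨Q, hQ⟩ : (⟨P, mem_tor_iff.mpr hP⟩ : Tor E p n) ∈ f.range := by
    rw [AddSubgroup.eq_top_of_card_eq f.range
      (le_antisymm (AddSubgroup.card_le_card_addGroup _) hrange)]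
    trivial
  exact ⟨Q, congrArg Subtype.val hQ, mem_tor_iff.mp Q.2⟩

theorem exists_basisOne :
    ∃ P : Fin 2 → Pt E, (∀ i, p ^ 1 • P i = 0) ∧
      ∀ c : Fin 2 → ℕ, c 0 • P 0 + c 1 • P 1 = 0 → ∀ i, p ∣ c i := by
  have hp := (Fact.out : p.Prime)
  let M := Submodule.torsionBy ℤ (E⁄Qb).Point (p : ℤ)
  have : Finite M := Local.finite_torsion_qbar E hΔ hp.ne_zero
  have hfr : Module.finrank (ZMod p) M = 2 := by
    have h := Module.natCard_eq_pow_finrank (K := ZMod p) (V := M)
    rw [Local.card_torsion_qbar E hΔ hp.ne_zero, Nat.card_zmod] at h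
    exact (Nat.pow_right_injective hp.two_le h).symm
  let b := Module.finBasisOfFinrankEq (ZMod p) M hfr
  refine ⟨fun i => (b i : Pt E), fun i => ?_, fun c hc => ?_⟩
  · rw [pow_one, ← natCast_zsmul]
    exact (Submodule.mem_torsionBy_iff _ _).mp (b i).2
  · have h : ∑ i, ((c i : ZMod p)) • b i = 0 := by
      rw [Fin.sum_univ_two, Nat.cast_smul_eq_nsmul, Nat.cast_smul_eq_nsmul]
      exact Subtype.ext (by simpa using hc)
    exact fun i => (ZMod.natCast_eq_zero_iff _ _).mp
      (Fintype.linearIndependent_iff.mp b.linearIndependent _ h i)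

/-- Compatible bases: `basisPt (n + 1)` generates the `pⁿ⁺¹`-torsion. -/
def basisSeq : (n : ℕ) → {P : Fin 2 → Pt E // ∀ i, p ^ (n + 1) • P i = 0}
  | 0 => ⟨(exists_basisOne hΔ).choose, (exists_basisOne hΔ).choose_spec.1⟩
  | n + 1 =>
      ⟨fun i => (exists_nsmul_eq hΔ ((basisSeq n).2 i)).choose,
        fun i => (exists_nsmul_eq hΔ ((basisSeq n).2 i)).choose_spec.2⟩

/-- The basis of the `pⁿ`-torsion. -/
def basisPt : ℕ → Fin 2 → Pt E
  | 0 => 0
  | n + 1 => (basisSeq (p := p) hΔ n).1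

theorem nsmul_basisPt_succ (n : ℕ) (i : Fin 2) :
    p • basisPt (p := p) hΔ (n + 1) i = basisPt (p := p) hΔ n i := by
  cases n with
  | zero => simpa [basisPt] using (basisSeq (p := p) hΔ 0).2 i
  | succ n => exact (exists_nsmul_eq hΔ ((basisSeq hΔ n).2 i)).choose_spec.1

theorem pow_nsmul_basisPt (n : ℕ) (i : Fin 2) : p ^ n • basisPt (p := p) hΔ n i = 0 := by
  cases n with
  | zero => simp [basisPt]
  | succ n => exact (basisSeq (p := p) hΔ n).2 i

theorem pow_nsmul_basisPt_add (n k : ℕ) (i : Fin 2) :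
    p ^ k • basisPt (p := p) hΔ (n + k) i = basisPt (p := p) hΔ n i := by
  induction k with
  | zero => simp
  | succ k ih => rw [pow_succ, mul_nsmul', ← Nat.add_assoc, nsmul_basisPt_succ, ih]

theorem dvd_of_combination_eq_zero : ∀ (n : ℕ) (c : Fin 2 → ℕ),
    c 0 • basisPt (p := p) hΔ n 0 + c 1 • basisPt (p := p) hΔ n 1 = 0 → ∀ i, p ^ n ∣ c i := by
  intro n
  induction n with
  | zero => intro c _ i; simp
  | succ n ih =>
    intro c hc i
    have h1 : c 0 • basisPt (p := p) hΔ n 0 + c 1 • basisPt (p := p) hΔ n 1 = 0 := by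
      have := congrArg (fun P => p • P) hc
      simp only [nsmul_add, smul_comm p (c 0), smul_comm p (c 1), nsmul_basisPt_succ (p := p),
        nsmul_zero] at this
      exact this
    have hd := ih c h1
    choose d hd using hd
    have h2 : d 0 • basisPt (p := p) hΔ 1 0 + d 1 • basisPt (p := p) hΔ 1 1 = 0 := by
      have e : ∀ j, c j • basisPt (p := p) hΔ (n + 1) j = d j • basisPt (p := p) hΔ 1 j := by
        intro j
        rw [hd j, mul_comm, mul_nsmul', Nat.add_comm n 1, pow_nsmul_basisPt_add]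
      rw [← e, ← e]
      exact hc
    have h3 : p ∣ d i := (exists_basisOne (p := p) hΔ).choose_spec.2 d h2 i
    rw [hd i, pow_succ]
    exact mul_dvd_mul_left _ h3

/-- The basis of the `pⁿ`-torsion, inside it. -/
def torBasisVec (n : ℕ) (i : Fin 2) : Tor E p n :=
  ⟨basisPt (p := p) hΔ n i, mem_tor_iff.mpr (pow_nsmul_basisPt hΔ n i)⟩

/-- Coordinates on the `pⁿ`-torsion. -/
def comb (n : ℕ) : (Fin 2 → ZMod (p ^ n)) →ₗ[ZMod (p ^ n)] Tor E p n :=
  Fintype.linearCombination (ZMod (p ^ n)) (torBasisVec hΔ n)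

theorem coe_comb (n : ℕ) (c : Fin 2 → ZMod (p ^ n)) :
    (comb hΔ n c : Pt E) =
      (c 0).val • basisPt (p := p) hΔ n 0 + (c 1).val • basisPt (p := p) hΔ n 1 := by
  have : NeZero (p ^ n) := ⟨pow_ne_zero n (Fact.out : p.Prime).ne_zero⟩
  rw [comb, Fintype.linearCombination_apply, Fin.sum_univ_two, Submodule.coe_add, coe_zmod_smul,
    coe_zmod_smul]
  rfl

theorem comb_bijective (n : ℕ) : Function.Bijective (comb (p := p) hΔ n) := by
  have : NeZero (p ^ n) := ⟨pow_ne_zero n (Fact.out : p.Prime).ne_zero⟩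
  have := Local.finite_torsion_qbar E hΔ (n := p ^ n) (NeZero.ne _)
  refine (Nat.bijective_iff_injective_and_card _).mpr ⟨?_, ?_⟩
  · rw [injective_iff_map_eq_zero]
    intro c hc
    have h := dvd_of_combination_eq_zero hΔ n (fun i => (c i).val)
      ((coe_comb hΔ n c).symm.trans (congrArg Subtype.val hc))
    funext i
    rw [Pi.zero_apply, ← ZMod.natCast_zmod_val (c i), ZMod.natCast_eq_zero_iff]
    exact h i
  · rw [Local.card_torsion_qbar E hΔ (NeZero.ne _), Nat.card_fun, Nat.card_zmod]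
    simp

/-- The basis of the `pⁿ`-torsion. -/
def torBasis (n : ℕ) : Module.Basis (Fin 2) (ZMod (p ^ n)) (Tor E p n) :=
  Module.Basis.ofEquivFun (LinearEquiv.ofBijective (comb hΔ n) (comb_bijective hΔ n)).symm

theorem torBasis_apply (n : ℕ) (i : Fin 2) : torBasis hΔ n i = torBasisVec (p := p) hΔ n i := by
  rw [torBasis, Module.Basis.coe_ofEquivFun, LinearEquiv.symm_symm]
  show comb hΔ n (Pi.single i 1) = _
  rw [comb, Fintype.linearCombination_apply_single, one_smul]

/-- The matrices of Galois on the `pⁿ`-torsion. -/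
def levelMat (n : ℕ) : GQ →* Matrix (Fin 2) (Fin 2) (ZMod (p ^ n)) :=
  (LinearMap.toMatrixAlgEquiv (torBasis hΔ n)).toAlgHom.toMonoidHom.comp
    (Point.galoisRepModuleEnd (K := Qb) ℚ E (p ^ n))

theorem smul_basisPt (n : ℕ) (σ : GQ) (j : Fin 2) :
    σ • basisPt (p := p) hΔ n j = (levelMat (p := p) hΔ n σ 0 j).val • basisPt (p := p) hΔ n 0 +
      (levelMat (p := p) hΔ n σ 1 j).val • basisPt (p := p) hΔ n 1 := by
  rw [← coe_comb hΔ n (fun i => levelMat (p := p) hΔ n σ i j), comb, Fintype.linearCombination_apply]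
  have hsum := (torBasis (p := p) hΔ n).sum_repr
    (Point.galoisRepModuleEnd (K := Qb) ℚ E (p ^ n) σ (torBasisVec hΔ n j))
  have key : (∑ i, levelMat (p := p) hΔ n σ i j • torBasisVec (p := p) hΔ n i) =
      Point.galoisRepModuleEnd (K := Qb) ℚ E (p ^ n) σ (torBasisVec hΔ n j) := by
    rw [← hsum]
    refine Finset.sum_congr rfl fun i _ => ?_
    rw [torBasis_apply]
    congr 1
    rw [← torBasis_apply hΔ n j]
    exact LinearMap.toMatrixAlgEquiv_apply _ _ i j
  rw [key]
  rfl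

theorem levelMat_succ (n : ℕ) (σ : GQ) :
    (ZMod.castHom (pow_dvd_pow p n.le_succ) (ZMod (p ^ n))).mapMatrix
      (levelMat (p := p) hΔ (n + 1) σ) = levelMat (p := p) hΔ n σ := by
  have : NeZero (p ^ n) := ⟨pow_ne_zero n (Fact.out : p.Prime).ne_zero⟩
  have : NeZero (p ^ (n + 1)) := ⟨pow_ne_zero _ (Fact.out : p.Prime).ne_zero⟩
  ext i j
  set a := fun k => levelMat (p := p) hΔ (n + 1) σ k j
  have h := congrArg (fun P => p • P) (smul_basisPt (p := p) hΔ (n + 1) σ j)
  simp only [nsmul_add, smul_comm p ((a _).val), nsmul_basisPt_succ (p := p), a] at h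
  replace h := (map_nsmul (DistribSMul.toAddMonoidHom (Pt E) σ) p
    (basisPt (p := p) hΔ (n + 1) j)).trans h
  simp only [DistribSMul.toAddMonoidHom_apply, nsmul_basisPt_succ (p := p)] at h
  have hc : comb hΔ n (fun k => levelMat (p := p) hΔ n σ k j) =
      comb hΔ n (fun k => ((levelMat (p := p) hΔ (n + 1) σ k j).val : ZMod (p ^ n))) := by
    apply Subtype.ext
    rw [coe_comb, coe_comb, ← smul_basisPt, h, ZMod.val_natCast, ZMod.val_natCast]
    congr 1 <;>
    · refine (nsmul_eq_mod_nsmul _ ?_)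
      exact pow_nsmul_basisPt hΔ n _
  have h2 := congrFun ((comb_bijective hΔ n).1 hc) i
  rw [RingHom.mapMatrix_apply, Matrix.map_apply, ZMod.castHom_apply, ← ZMod.natCast_val]
  exact h2.symm

/-- A linear relation on all of the `pⁿ`-torsion is a matrix relation. -/
theorem levelMat_relation (n : ℕ) (σ : GQ) (a b : ℤ)
    (h : ∀ P : Pt E, p ^ n • P = 0 → σ • σ • P - a • (σ • P) + b • P = 0) :
    levelMat (p := p) hΔ n σ * levelMat (p := p) hΔ n σ - (a : ZMod (p ^ n)) • levelMat (p := p) hΔ n σ +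
      (b : ZMod (p ^ n)) • (1 : Matrix (Fin 2) (Fin 2) (ZMod (p ^ n))) = 0 := by
  set r := Point.galoisRepModuleEnd (K := Qb) ℚ E (p ^ n)
  have hr : r σ * r σ - (a : ZMod (p ^ n)) • r σ + (b : ZMod (p ^ n)) • 1 = 0 := by
    refine LinearMap.ext fun x => Subtype.ext ?_
    simp only [LinearMap.add_apply, LinearMap.sub_apply, LinearMap.smul_apply, LinearMap.zero_apply,
      Module.End.mul_apply, Module.End.one_apply, Int.cast_smul_eq_zsmul]
    exact h (x : Pt E) (mem_tor_iff.mp x.2)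
  have := congrArg (LinearMap.toMatrixAlgEquiv (torBasis hΔ n)) hr
  simpa [map_add, map_sub, map_mul, map_smul, levelMat] using this

end FermatAgent.GalRep.Tate
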