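import Fermat.Agent.GalRep.Tate.Levels
import Fermat.Agent.GalRep.Construct.TateData
import Fermat.Agent.DefRing.MatrixRep

/-!
The `p`-adic Tate module of an elliptic curve over `ℚ` as a `GaloisRepAdic ℤ_[p]`.
-/

set_option autoImplicit false

open scoped WeierstrassCurve.Affine

noncomputable section

namespace FermatAgent.GalRep.Tate

open WeierstrassCurve WeierstrassCurve.Affine Polynomial

local notation "Qb" => AlgebraicClosure ℚ
local notation "GQ" => AlgebraicClosure ℚ ≃ₐ[ℚ] AlgebraicClosure ℚ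

variable {E : WeierstrassCurve ℚ} {p : ℕ} [Fact p.Prime] (hΔ : E.Δ ≠ 0)
include hΔ

/-- The `p`-adic matrix of an automorphism on the Tate module. -/
def tateEntry (σ : GQ) : Matrix (Fin 2) (Fin 2) ℤ_[p] :=
  Matrix.of fun i j => (exists_padicInt_of_compatible (fun n => levelMat (p := p) hΔ n σ i j)
    (fun n => congrFun (congrFun (levelMat_succ (p := p) hΔ n σ) i) j)).choose

theorem tateEntry_toZModPow (n : ℕ) (σ : GQ) :
    (PadicInt.toZModPow n).mapMatrix (tateEntry (p := p) hΔ σ) = levelMat (p := p) hΔ n σ :=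
  Matrix.ext fun i j => (exists_padicInt_of_compatible (fun n => levelMat (p := p) hΔ n σ i j)
    (fun n => congrFun (congrFun (levelMat_succ (p := p) hΔ n σ) i) j)).choose_spec n

/-- The matrix representation on the Tate module. -/
def tateMatHom : GQ →* Matrix (Fin 2) (Fin 2) ℤ_[p] where
  toFun := tateEntry hΔ
  map_one' := matrix_ext_of_toZModPow fun n => by rw [tateEntry_toZModPow, map_one, map_one]
  map_mul' σ τ := matrix_ext_of_toZModPow fun n => by
    rw [tateEntry_toZModPow, map_mul, map_mul, tateEntry_toZModPow, tateEntry_toZModPow]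

theorem tateMatHom_toZModPow (n : ℕ) (σ : GQ) :
    (PadicInt.toZModPow n).mapMatrix (tateMatHom (p := p) hΔ σ) = levelMat (p := p) hΔ n σ :=
  tateEntry_toZModPow hΔ n σ

theorem isCont_tateMatHom : DefRing.IsCont (tateMatHom (p := p) hΔ) := by
  intro n
  obtain ⟨L, hL, h1⟩ := Local.galoisRep_factorsThroughFiniteLevel E hΔ
    (pow_ne_zero n (Fact.out : p.Prime).ne_zero)
  refine ⟨L, hL, fun σ hσ i j => ?_⟩
  rw [PadicInt.maximalIdeal_eq_span_p, Ideal.span_singleton_pow, ← PadicInt.ker_toZModPow,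
    RingHom.mem_ker]
  have h : (PadicInt.toZModPow n).mapMatrix (tateMatHom (p := p) hΔ σ - 1) = 0 := by
    rw [map_sub, map_one, tateMatHom_toZModPow, sub_eq_zero]
    show LinearMap.toMatrixAlgEquiv (torBasis hΔ n) (Point.galoisRepModuleEnd ℚ E (p ^ n) σ) = 1
    rw [h1 σ hσ, map_one]
  exact congrFun (congrFun h i) j

variable (p) in
/-- The `p`-adic Tate module. -/
def tateRep : GaloisRepAdic ℤ_[p] :=
  DefRing.toAdic (tateMatHom hΔ) (isCont_tateMatHom hΔ)

theorem charpoly_tateRep (σ : GQ) :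
    ((tateRep p hΔ).ρ σ).charpoly = (tateMatHom (p := p) hΔ σ).charpoly :=
  Matrix.charpoly_toLin' _

theorem det_tateRep (σ : GQ) :
    LinearMap.det ((tateRep p hΔ).ρ σ) = (tateMatHom (p := p) hΔ σ).det :=
  LinearMap.det_toLin' _

/-- A relation on all `p`-power torsion points is a relation between matrices. -/
theorem tateMatHom_relation (σ : GQ) (a b : ℤ)
    (h : ∀ (n : ℕ) (P : Pt E), p ^ n • P = 0 → σ • σ • P - a • (σ • P) + b • P = 0) :
    tateMatHom (p := p) hΔ σ * tateMatHom (p := p) hΔ σ -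
      (a : ℤ_[p]) • tateMatHom (p := p) hΔ σ + (b : ℤ_[p]) • 1 = 0 := by
  refine matrix_ext_of_toZModPow fun n => ?_
  have hs : ∀ (c : ℤ) (M : Matrix (Fin 2) (Fin 2) ℤ_[p]),
      (PadicInt.toZModPow n).mapMatrix ((c : ℤ_[p]) • M) =
        (c : ZMod (p ^ n)) • (PadicInt.toZModPow n).mapMatrix M := by
    intro c M
    ext i j
    simp
  rw [map_add, map_sub, map_mul, hs, hs, tateMatHom_toZModPow, map_one, map_zero]
  exact levelMat_relation hΔ n σ a b (h n)

/-- An automorphism fixing all `p`-power torsion acts trivially on the Tate module. -/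
theorem tateMatHom_eq_one (σ : GQ) (h : ∀ (n : ℕ) (P : Pt E), p ^ n • P = 0 → σ • P = P) :
    tateMatHom (p := p) hΔ σ = 1 := by
  refine matrix_ext_of_toZModPow fun n => ?_
  rw [tateMatHom_toZModPow, map_one]
  show LinearMap.toMatrixAlgEquiv (torBasis hΔ n) (Point.galoisRepModuleEnd ℚ E (p ^ n) σ) = 1
  have : Point.galoisRepModuleEnd (K := Qb) ℚ E (p ^ n) σ = 1 :=
    LinearMap.ext fun x => Subtype.ext (h n _ (mem_tor_iff.mp x.2))
  rw [this, map_one]

/-- An automorphism with `(σ - 1)² = 0` on all `p`-power torsion is unipotent. -/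
theorem charpoly_eq_of_unipotent (σ : GQ)
    (h : ∀ (n : ℕ) (P : Pt E), p ^ n • P = 0 → σ • (σ • P - P) = σ • P - P) :
    ((tateRep p hΔ).ρ σ).charpoly = (X - 1) ^ 2 := by
  set M := tateMatHom (p := p) hΔ σ
  have hrel := tateMatHom_relation hΔ σ 2 1 fun n P hP => by
    have h1 := h n P hP
    rw [smul_sub, sub_eq_iff_eq_add] at h1
    rw [h1]
    abel
  push_cast at hrel
  have hN : (M - 1) * (M - 1) = 0 := by
    refine Eq.trans ?_ hrel
    rw [sub_mul, mul_sub, one_mul, mul_one, one_smul, two_smul]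
    abel
  have hnil : IsNilpotent (M - 1) := ⟨2, by rw [pow_two, hN]⟩
  have ht : (M - 1).trace = 0 := IsReduced.eq_zero _ (Matrix.isNilpotent_trace_of_isNilpotent hnil)
  have hd : (M - 1).det = 0 := by
    have h := congrArg Matrix.det hN
    rw [Matrix.det_mul, Matrix.det_zero] at h
    exact mul_self_eq_zero.mp h
  rw [charpoly_tateRep, Matrix.charpoly_fin_two]
  rw [Matrix.trace_sub, Matrix.trace_one, sub_eq_zero] at ht
  rw [Matrix.det_fin_two] at hd ⊢
  rw [Matrix.trace_fin_two] at ht ⊢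
  simp only [Matrix.sub_apply, Matrix.one_apply_eq, Matrix.one_apply_ne (show (0 : Fin 2) ≠ 1 by decide),
    Matrix.one_apply_ne (show (1 : Fin 2) ≠ 0 by decide), sub_zero] at hd
  have ht' : M 0 0 + M 1 1 = 2 := by simpa [M] using ht
  have hd' : M 0 0 * M 1 1 - M 0 1 * M 1 0 = 1 := by linear_combination hd + ht'
  rw [ht', hd']
  simp only [map_ofNat, map_one]
  ring

theorem charpoly_levelMat_one (σ : GQ) (m : ℕ) (hm : p ^ 1 = m)
    [Module.Free (ZMod m) (Submodule.torsionBy ℤ (E⁄Qb).Point (m : ℤ))]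
    [Module.Finite (ZMod m) (Submodule.torsionBy ℤ (E⁄Qb).Point (m : ℤ))] :
    (levelMat (p := p) hΔ 1 σ).charpoly.map (ZMod.castHom hm.symm.dvd (ZMod m)) =
      (Point.galoisRepModuleEnd (K := Qb) ℚ E m σ).charpoly := by
  subst hm
  rw [ZMod.castHom_self, Polynomial.map_id]
  exact LinearMap.charpoly_toMatrix _ (torBasis hΔ 1)

end FermatAgent.GalRep.Tate
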