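import Fermat.Agent.GalRep.Tate.Module
import Fermat.Agent.Local.Multiplicative

/-!
# Decomposition group at a prime of multiplicative reduction, on the Tate module

An element of the decomposition group at `q` acts on the component group by `±1`, so
`det (σ² - 1) = 0` on the `λ`-adic Tate module, i.e. `trace σ = ± (1 + det σ)`.
-/

set_option autoImplicit false

open scoped WeierstrassCurve.Affine

noncomputable section

namespace FermatAgent.GalRep.Tate

open WeierstrassCurve WeierstrassCurve.Affine FermatAgent.Local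

local notation "Qb" => AlgebraicClosure ℚ
local notation "GQ" => AlgebraicClosure ℚ ≃ₐ[ℚ] AlgebraicClosure ℚ

section Rigidity

variable {K : Type*} [Field K] {A : ValuationSubring K} {T : WeierstrassCurve K}
  {D : VariableChange K}

/-- integral changes of variables between Tate forms are `±1` -/
theorem isTate_vc_eq (hT : IsTate A T.toAffine) (hT' : IsTate A (D • T).toAffine)
    (hu : A.valuation (D.u : K) = 1) (ht : D.t ∈ A) (h2 : (2 : K) ≠ 0) (h3 : (3 : K) ≠ 0) :
    D.r = 0 ∧ D.t = 0 ∧ (((D.u : K) = 1 ∧ D.s = 0) ∨ ((D.u : K) = -1 ∧ D.s = -1)) := by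
  have hu0 : (D.u : K) ≠ 0 := D.u.ne_zero
  have t1 : T.a₁ = 1 := hT.a₁
  have t2 : T.a₂ = 0 := hT.a₂
  have t3 : T.a₃ = 0 := hT.a₃
  have t4 : T.a₄ = 0 := hT.a₄
  have d1 : (D • T).a₁ = 1 := hT'.a₁
  have d2 : (D • T).a₂ = 0 := hT'.a₂
  have d3 : (D • T).a₃ = 0 := hT'.a₃
  have d4 : (D • T).a₄ = 0 := hT'.a₄
  have d6 : A.valuation (D • T).a₆ < 1 := hT'.c_lt
  simp only [WeierstrassCurve.variableChange_def, Units.val_inv_eq_inv_val] at d1 d2 d3 d4 d6
  simp only [t1, t2, t3, t4] at d1 d2 d3 d4 d6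
  field_simp at d1
  simp only [mul_eq_zero, pow_eq_zero_iff', inv_eq_zero, hu0, false_and, false_or] at d2 d3 d4
  have hrt : D.r = -2 * D.t := by linear_combination d3
  have ht12 : D.t * (12 * D.t - 1) = 0 := by
    rw [hrt] at d4
    linear_combination d4
  rcases mul_eq_zero.1 ht12 with ht0 | ht1
  · have hr0 : D.r = 0 := by rw [hrt, ht0, mul_zero]
    refine ⟨hr0, ht0, ?_⟩
    rw [hr0] at d2
    have hss : D.s * (D.s + 1) = 0 := by linear_combination -d2
    rcases mul_eq_zero.1 hss with hs0 | hs1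
    · exact Or.inl ⟨by rw [hs0] at d1; linear_combination -d1, hs0⟩
    · have hs1' : D.s = -1 := by linear_combination hs1
      exact Or.inr ⟨by rw [hs1'] at d1; linear_combination -d1, hs1'⟩
  · exfalso
    have h12 : (12 : K) ≠ 0 := by
      rw [show (12 : K) = 2 * 2 * 3 by norm_num]; exact mul_ne_zero (mul_ne_zero h2 h2) h3
    have ht' : D.t = 1 / 12 := by field_simp; linear_combination ht1
    have hv12 : A.valuation (12 : K) = 1 := by
      refine le_antisymm (val_le_one_of_mem (natCast_mem A 12)) ?_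
      have := val_le_one_of_mem ht
      rw [ht', one_div, map_inv₀] at this
      exact (inv_le_one₀ (zero_lt_iff.2 ((map_ne_zero _).2 h12))).1 this
    have h432 : (432 : K) ≠ 0 := by
      rw [show (432 : K) = 2 ^ 4 * 3 ^ 3 by norm_num]
      exact mul_ne_zero (pow_ne_zero _ h2) (pow_ne_zero _ h3)
    rw [hrt, ht', map_mul, map_pow, map_inv₀, hu, inv_one, one_pow, one_mul,
      show T.a₆ + -2 * (1 / 12) * 0 + (-2 * (1 / 12)) ^ 2 * 0 + (-2 * (1 / 12)) ^ 3
        - 1 / 12 * 0 - (1 / 12) ^ 2 - -2 * (1 / 12) * (1 / 12) * 1 = 432⁻¹ + T.a₆ by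
        field_simp; ring] at d6
    have hv432 : A.valuation (432 : K) = 1 := by
      refine le_antisymm (val_le_one_of_mem (natCast_mem A 432)) ?_
      have h : A.valuation ((12 : K) ^ 3) ≤ A.valuation (432 : K) := by
        rw [show (12 : K) ^ 3 = 4 * 432 by norm_num, map_mul]
        exact mul_le_of_le_one_left' (val_le_one_of_mem (natCast_mem A 4))
      rwa [map_pow, hv12, one_pow] at h
    have hc : A.valuation T.a₆ < 1 := hT.c_lt
    rw [A.valuation.map_add_eq_of_lt_left (by rwa [map_inv₀, hv432, inv_one]), map_inv₀, hv432,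
      inv_one] at d6
    exact lt_irrefl _ d6

end Rigidity

section Decomposition

variable {A : ValuationSubring Qb} {W : WeierstrassCurve.Affine Qb} {σ : GQ}

/-- The square of a decomposition element moves points within their component. -/
theorem sq_conj_sub_inE0 (hW : IntCoeffs A W) (hΔ : A.valuation W.Δ < 1) (hΔ0 : W.Δ ≠ 0)
    (hc₄ : A.valuation W.c₄ = 1) (hσ : σ ∈ A.decompositionSubgroup ℚ)
    (hfix : W.map (σ : Qb →+* Qb) = W) (hfix2 : W.map ((σ * σ : GQ) : Qb →+* Qb) = W)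
    (P : W.Point) :
    InE0 A W (conjPoint W ((σ * σ : GQ) : Qb →+* Qb) hfix2 P - P) := by
  obtain ⟨C, hT, -, hu, hr, hs, ht, -⟩ := exists_tate_form hW hΔ hΔ0 hc₄
  set C' := C.map (σ : Qb →+* Qb) with hC'
  have hT' : IsTate A (C' • W).toAffine := by
    have e : C' • W = ((C • W : WeierstrassCurve Qb)).map (σ : Qb →+* Qb) :=
      (congrArg (C' • ·) hfix.symm).trans (WeierstrassCurve.map_variableChange W C _)
    refine ⟨?_, ?_, ?_, ?_, ?_, ?_⟩ <;> show _ <;> rw [e]
    · exact (congrArg σ hT.a₁).trans (map_one σ)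
    · exact (congrArg σ hT.a₂).trans (map_zero σ)
    · exact (congrArg σ hT.a₃).trans (map_zero σ)
    · exact (congrArg σ hT.a₄).trans (map_zero σ)
    · exact fun h => hT.c_ne (σ.injective (h.trans (map_zero σ).symm))
    · exact lt_of_eq_of_lt (val_galois_eq hσ _) hT.c_lt
  have hu' : A.valuation ((C'.u : Qb)) = 1 := (val_galois_eq hσ _).trans hu
  have hmem : ∀ {z : Qb}, z ∈ A → σ z ∈ A := fun h => (decomposition_mem_iff hσ _).2 h
  have hCu : ((C.u⁻¹ : Qbˣ) : Qb) ∈ A := mem_of_val_le_one (by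
    rw [Units.val_inv_eq_inv_val, map_inv₀, hu, inv_one])
  have huA : (C.u : Qb) ∈ A := mem_of_val_le_one hu.le
  set D := C' * C⁻¹ with hD
  have hDC : D * C = C' := by rw [hD, inv_mul_cancel_right]
  have hDT : IsTate A (D • (C • W : WeierstrassCurve Qb)).toAffine := by
    rw [← mul_smul, hDC]; exact hT'
  have hDu : A.valuation (D.u : Qb) = 1 := by
    show A.valuation ((C'.u * C.u⁻¹ : Qbˣ) : Qb) = 1
    rw [Units.val_mul, map_mul, hu', Units.val_inv_eq_inv_val, map_inv₀, hu, inv_one, one_mul]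
  have hCi : (C⁻¹).r ∈ A ∧ (C⁻¹).s ∈ A ∧ (C⁻¹).t ∈ A := by
    refine ⟨?_, ?_, ?_⟩
    · exact mul_mem (neg_mem hr) (pow_mem hCu 2)
    · exact mul_mem (neg_mem hs) hCu
    · exact mul_mem (sub_mem (mul_mem hr hs) ht) (pow_mem hCu 3)
  have hDt : D.t ∈ A :=
    add_mem (add_mem (mul_mem (hmem ht) (pow_mem hCu 3))
      (mul_mem (mul_mem (hmem hr) hCi.2.1) (pow_mem hCu 2))) hCi.2.2
  obtain ⟨hr0, ht0, hus⟩ := isTate_vc_eq hT hDT hDu hDt two_ne_zero three_ne_zero
  have hinv : D * D = 1 := by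
    rcases hus with ⟨h1, h2⟩ | ⟨h1, h2⟩ <;> ext <;>
      simp [VariableChange.mul_def, VariableChange.one_def, hr0, ht0, h1, h2]
  have hDσ : D.map (σ : Qb →+* Qb) = D := by
    ext
    · show σ (D.u : Qb) = D.u
      rcases hus with ⟨h1, -⟩ | ⟨h1, -⟩ <;> simp [h1]
    · show σ D.r = D.r
      rw [hr0, map_zero]
    · show σ D.s = D.s
      rcases hus with ⟨-, h1⟩ | ⟨-, h1⟩ <;> simp [h1]
    · show σ D.t = D.t
      rw [ht0, map_zero]
  have hC2 : C.map ((σ * σ : GQ) : Qb →+* Qb) = C := by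
    calc C.map ((σ * σ : GQ) : Qb →+* Qb) = C'.map (σ : Qb →+* Qb) := by
          rw [hC', VariableChange.map_map]; rfl
      _ = D.map (σ : Qb →+* Qb) * C' := by
          conv_lhs => rw [← hDC]
          exact map_mul (VariableChange.mapHom (σ : Qb →+* Qb)) D C
      _ = C := by rw [hDσ, ← hDC, ← mul_assoc, hinv, one_mul]
  obtain ⟨Q, rfl⟩ := (vcHom_bijective W C).2 P
  rw [← vcHom_conjPoint hfix2 hC2, ← map_sub, inE0_vcHom_iff hW hT.intCoeffs hu hr hs ht]
  exact hT.conj_sub_inE0 _ (mul_mem hσ hσ) Q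

theorem preNormEDS'_mem {R : Type*} [CommRing R] (I : Ideal R) (b : R) {c d : R} (hc : c ∈ I)
    (hd : d ∈ I) : ∀ n : ℕ, 3 ≤ n → preNormEDS' b c d n ∈ I := by
  intro n
  induction n using Nat.strong_induction_on with
  | _ n ih =>
    intro hn
    rcases Nat.lt_or_ge n 5 with h5 | h5
    · interval_cases n
      · rwa [preNormEDS'_three]
      · rwa [preNormEDS'_four]
    obtain ⟨m, rfl | rfl⟩ : ∃ m, n = 2 * (m + 3) ∨ n = 2 * (m + 2) + 1 := by
      rcases Nat.even_or_odd' n with ⟨k, rfl | rfl⟩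
      · exact ⟨k - 3, Or.inl (by omega)⟩
      · exact ⟨k - 2, Or.inr (by omega)⟩
    · have h := ih (m + 3) (by omega) (by omega)
      rw [preNormEDS'_even]
      exact sub_mem (Ideal.mul_mem_right _ I (Ideal.mul_mem_left I _ h))
        (Ideal.mul_mem_right _ I (Ideal.mul_mem_left I _ h))
    · rw [preNormEDS'_odd]
      exact sub_mem
        (Ideal.mul_mem_right _ I (Ideal.mul_mem_right _ I (ih (m + 4) (by omega) (by omega))))
        (Ideal.mul_mem_right _ I (Ideal.mul_mem_left I _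
          (Ideal.pow_mem_of_mem I (ih (m + 3) (by omega) (by omega)) 3 (by norm_num))))

/-- On a Tate form some point of odd order `l` prime to the residue characteristic is off `E₀`. -/
theorem exists_torsion_not_inE0 (hT : IsTate A W) (hΔ : W.Δ ≠ 0) {l : ℕ} (hl : 3 ≤ l)
    (hodd : Odd l) (hlA : A.valuation (l : Qb) = 1) :
    ∃ P : W.Point, l • P = 0 ∧ ¬ InE0 A W P := by
  set f := W.preΨ' l with hf
  have hlK : (l : Qb) ≠ 0 := by exact_mod_cast (show l ≠ 0 by omega)
  have hlead : f.leadingCoeff = (l : Qb) := by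
    rw [hf, WeierstrassCurve.leadingCoeff_preΨ' W hlK, if_neg (Nat.not_even_iff_odd.2 hodd)]
  have h0 : A.valuation (f.coeff 0) < 1 := by
    have hW := hT.intCoeffs
    set Wi := intModel hW with hWi
    have hmem : (Wi.preΨ' l).eval 0 ∈ IsLocalRing.maximalIdeal A := by
      have hc : Wi.a₆ ∈ IsLocalRing.maximalIdeal A := (A.valuation_lt_one_iff _).2 hT.c_lt
      rw [WeierstrassCurve.preΨ', ← Polynomial.coe_evalRingHom, map_preNormEDS']
      have e1 : Wi.a₁ = 1 := Subtype.ext hT.a₁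
      have e2 : Wi.a₂ = 0 := Subtype.ext hT.a₂
      have e3 : Wi.a₃ = 0 := Subtype.ext hT.a₃
      have e4 : Wi.a₄ = 0 := Subtype.ext hT.a₄
      refine preNormEDS'_mem _ _ ?_ ?_ l hl
      · rw [Polynomial.coe_evalRingHom]
        simp only [WeierstrassCurve.Ψ₃, WeierstrassCurve.b₂, WeierstrassCurve.b₄,
          WeierstrassCurve.b₆, WeierstrassCurve.b₈, e1, e2, e3, e4, Polynomial.eval_add,
          Polynomial.eval_mul, Polynomial.eval_pow, Polynomial.eval_X, Polynomial.eval_C,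
          Polynomial.eval_ofNat]
        simpa using hc
      · rw [Polynomial.coe_evalRingHom]
        simp only [WeierstrassCurve.preΨ₄, WeierstrassCurve.b₂, WeierstrassCurve.b₄,
          WeierstrassCurve.b₆, WeierstrassCurve.b₈, e1, e2, e3, e4, Polynomial.eval_add,
          Polynomial.eval_mul, Polynomial.eval_pow, Polynomial.eval_X, Polynomial.eval_C,
          Polynomial.eval_ofNat]
        refine Ideal.mem_of_dvd _ ?_ hc
        exact ⟨-16 * Wi.a₆, by ring⟩
    have e : f.coeff 0 = A.subtype ((Wi.preΨ' l).eval 0) := by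
      rw [← Polynomial.coeff_zero_eq_eval_zero, ← Polynomial.coeff_map,
        ← WeierstrassCurve.map_preΨ', hWi, intModel_map]
    rw [e]
    exact (A.valuation_lt_one_iff _).1 hmem
  have hsplit : f.Splits := IsAlgClosed.splits f
  obtain ⟨x, hx, hxv⟩ : ∃ x ∈ f.roots, A.valuation x < 1 := by
    by_contra hne
    push Not at hne
    have h := Polynomial.Splits.coeff_zero_eq_leadingCoeff_mul_prod_roots hsplit
    rw [h, hlead, map_mul, map_mul, map_pow, Valuation.map_neg, map_one, one_pow, one_mul, hlA,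
      one_mul, map_multiset_prod] at h0
    exact absurd h0 (not_lt.2 (Multiset.one_le_prod_of_one_le fun a ha => by
      obtain ⟨r, hr, rfl⟩ := Multiset.mem_map.1 ha
      exact hne r hr))
  obtain ⟨y, hy⟩ := IsAlgClosed.exists_root
    (Polynomial.X ^ 2 + Polynomial.C (W.a₁ * x + W.a₃) * Polynomial.X +
      Polynomial.C (-(x ^ 3 + W.a₂ * x ^ 2 + W.a₄ * x + W.a₆))) (by
      have e : (Polynomial.X ^ 2 + Polynomial.C (W.a₁ * x + W.a₃) * Polynomial.X
        + Polynomial.C (-(x ^ 3 + W.a₂ * x ^ 2 + W.a₄ * x + W.a₆))).degree = 2 := by compute_degree!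
      rw [e]; exact two_ne_zero)
  simp only [Polynomial.IsRoot, Polynomial.eval_add, Polynomial.eval_mul, Polynomial.eval_C,
    Polynomial.eval_pow, Polynomial.eval_X] at hy
  have he : W.Equation x y := by rw [Local.equation_iff_zero]; linear_combination hy
  have hns : W.Nonsingular x y := (equation_iff_nonsingular_of_Δ_ne_zero hΔ).1 he
  refine ⟨.some x y hns, ?_, (hT.not_inE0_iff hns).2 hxv⟩
  rw [Local.nsmul_eq_zero_iff hns l]
  rw [WeierstrassCurve.ΨSq_ofNat, if_neg (Nat.not_even_iff_odd.2 hodd), mul_one,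
    Polynomial.eval_pow, (Polynomial.mem_roots'.1 hx).2, zero_pow two_ne_zero]

end Decomposition

section Trace

variable (E : WeierstrassCurve ℤ) {q l : ℕ} [Fact l.Prime] {A : ValuationSubring Qb} {σ : GQ}

omit [Fact l.Prime] in
theorem exists_mul_eq_pow (hl : l.Prime) {n : ℕ} {d : ZMod (l ^ (n + 1))} (hd : d ≠ 0) :
    ∃ e, d * e = (l : ZMod (l ^ (n + 1))) ^ n := by
  have : NeZero (l ^ (n + 1)) := ⟨pow_ne_zero _ hl.ne_zero⟩
  obtain ⟨k, m, hm, hkm⟩ := Nat.exists_eq_pow_mul_and_not_dvd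
    (fun h => hd ((ZMod.val_eq_zero d).1 h)) l hl.ne_one
  have hk : k ≤ n := by
    by_contra hk
    refine hd ?_
    rw [← ZMod.natCast_zmod_val d, hkm, ZMod.natCast_eq_zero_iff]
    exact Dvd.dvd.mul_right (pow_dvd_pow l (by omega)) m
  obtain ⟨u, hu⟩ : IsUnit (m : ZMod (l ^ (n + 1))) :=
    (ZMod.isUnit_iff_coprime m _).2 (((hl.coprime_iff_not_dvd.2 hm).symm).pow_right (n + 1))
  refine ⟨(l : ZMod (l ^ (n + 1))) ^ (n - k) * ↑u⁻¹, ?_⟩
  rw [← ZMod.natCast_zmod_val d, hkm]
  push_cast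
  rw [← hu, show ((l : ZMod (l ^ (n + 1))) ^ k * u) * ((l : ZMod (l ^ (n + 1))) ^ (n - k) * ↑u⁻¹) =
    (l : ZMod (l ^ (n + 1))) ^ k * (l : ZMod (l ^ (n + 1))) ^ (n - k) * (u * ↑u⁻¹) by ring,
    Units.mul_inv, mul_one, ← pow_add, Nat.add_sub_cancel' hk]

/-- At a prime of multiplicative reduction, decomposition elements have trace `± (1 + det)`. -/
theorem trace_eq_of_mult (hq : q.Prime) (hΔ : (E.map (Int.castRingHom ℚ)).Δ ≠ 0)
    (hbad : (q : ℤ) ∣ E.Δ) (hc₄ : ¬ (q : ℤ) ∣ E.c₄) (hl2 : l ≠ 2) (hlq : l ≠ q)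
    (hA : A.LiesOverPrime q) (hσ : σ ∈ A.decompositionSubgroup ℚ) :
    (tateMatHom (p := l) hΔ σ).trace = 1 + (tateMatHom (p := l) hΔ σ).det ∨
      (tateMatHom (p := l) hΔ σ).trace = -(1 + (tateMatHom (p := l) hΔ σ).det) := by
  have hl : l.Prime := Fact.out
  have hΔ0 : E.Δ ≠ 0 := fun h => hΔ (by rw [WeierstrassCurve.map_Δ, h, map_zero])
  have hW := qbarCurve_intCoeffs E A
  have hv1 : A.valuation (qbarCurve E).Δ < 1 := by
    rw [qbarCurve_Δ]; exact (val_intCast_lt_one_iff hq hA _).2 hbad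
  have hv2 : (qbarCurve E).Δ ≠ 0 := by rw [qbarCurve_Δ]; exact_mod_cast hΔ0
  have hv3 : A.valuation (qbarCurve E).c₄ = 1 := by
    rw [qbarCurve_c₄]; exact val_intCast_eq_one hq hA hc₄
  have hvl : A.valuation (l : Qb) = 1 :=
    val_natCast_eq_one hq hA fun h => hlq ((Nat.prime_dvd_prime_iff_eq hq hl).1 h).symm
  -- a point of order `l` off `E₀`
  obtain ⟨R, hR, hR0⟩ : ∃ R : (qbarCurve E).Point, l • R = 0 ∧ ¬ InE0 A (qbarCurve E) R := by
    obtain ⟨C, hT, -, hu, hr, hs, ht, -⟩ := exists_tate_form hW hv1 hv2 hv3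
    have hΔC : (C • qbarCurve E).toAffine.Δ ≠ 0 := by
      show (C • qbarCurve E).Δ ≠ 0
      rw [WeierstrassCurve.variableChange_Δ]
      exact mul_ne_zero (pow_ne_zero _ (Units.ne_zero _)) hv2
    obtain ⟨Q, hQ, hQ0⟩ := exists_torsion_not_inE0 hT hΔC
      (by have := hl.two_le; omega) (hl.odd_of_ne_two hl2) hvl
    exact ⟨vcHom (qbarCurve E) C Q, by rw [← map_nsmul, hQ, map_zero],
      fun h => hQ0 ((inE0_vcHom_iff hW hT.intCoeffs hu hr hs ht Q).1 h)⟩
  -- at every level `σ² - 1` has determinant zero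
  have hlevel : ∀ n, (levelMat (p := l) hΔ (n + 1) (σ * σ) - 1).det = 0 := by
    intro n
    by_contra hd
    obtain ⟨e, he⟩ := exists_mul_eq_pow hl hd
    obtain ⟨Q, hQR, hQ⟩ : ∃ Q : Pt (E.map (Int.castRingHom ℚ)),
        l ^ n • Q = R ∧ l ^ (n + 1) • Q = 0 := by
      clear hd he e
      induction n with
      | zero => exact ⟨R, one_nsmul R, by rw [pow_one]; exact hR⟩
      | succ n ih =>
        obtain ⟨Q, hQR, hQ⟩ := ih
        obtain ⟨Q', h1, h2⟩ := exists_nsmul_eq (p := l) hΔ hQ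
        exact ⟨Q', by rw [pow_succ, mul_nsmul', h1, hQR], h2⟩
    have : NeZero (l ^ (n + 1)) := ⟨pow_ne_zero _ hl.ne_zero⟩
    set Φ := LinearMap.toMatrixAlgEquiv (torBasis (p := l) hΔ (n + 1))
    set r := Point.galoisRepModuleEnd (K := Qb) ℚ (E.map (Int.castRingHom ℚ)) (l ^ (n + 1)) (σ * σ)
    set M := levelMat (p := l) hΔ (n + 1) (σ * σ) - 1 with hM
    have hkey : (r - 1) * Φ.symm M.adjugate = M.det • 1 := by
      apply Φ.injective
      rw [map_mul, AlgEquiv.apply_symm_apply, map_smul, map_one, map_sub, map_one]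
      exact Matrix.mul_adjugate M
    set x : Tor (E.map (Int.castRingHom ℚ)) l (n + 1) := ⟨Q, mem_tor_iff.mpr hQ⟩
    set S := Φ.symm M.adjugate (e • x)
    have h1 := LinearMap.congr_fun hkey (e • x)
    rw [Module.End.mul_apply, LinearMap.smul_apply, Module.End.one_apply, smul_smul, he,
      ← Nat.cast_pow, Nat.cast_smul_eq_nsmul] at h1
    have h2 : (σ * σ) • (S : Pt (E.map (Int.castRingHom ℚ))) - S = R :=
      (congrArg Subtype.val h1).trans ((Submodule.coe_smul_of_tower _ _).trans hQR)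
    refine hR0 (h2 ▸ ?_)
    rw [galois_smul_eq_conjPoint]
    exact sq_conj_sub_inE0 hW hv1 hv2 hv3 hσ (qbarCurve_conj E _) _ _
  set M := tateMatHom (p := l) hΔ σ with hMdef
  have hdet : (M * M - 1).det = 0 := by
    rw [← PadicInt.ext_of_toZModPow]
    intro n
    rw [RingHom.map_det, map_zero, map_sub, map_one, hMdef, ← map_mul, tateMatHom_toZModPow]
    rcases n with _ | n
    · have : Subsingleton (ZMod (l ^ 0)) := by rw [pow_zero]; infer_instance
      exact Subsingleton.elim _ _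
    · exact hlevel n
  have hfac : (1 - M.trace + M.det) * (1 + M.trace + M.det) = 0 := by
    rw [← hdet, show M * M - 1 = (M - 1) * (M + 1) by noncomm_ring, Matrix.det_mul,
      Matrix.det_fin_two, Matrix.det_fin_two, Matrix.det_fin_two, Matrix.trace_fin_two]
    simp only [Matrix.sub_apply, Matrix.add_apply, Matrix.one_apply_eq,
      Matrix.one_apply_ne (show (0 : Fin 2) ≠ 1 by decide),
      Matrix.one_apply_ne (show (1 : Fin 2) ≠ 0 by decide)]
    ring
  rcases mul_eq_zero.1 hfac with h | h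
  · left; linear_combination -h
  · right; linear_combination h

end Trace

end FermatAgent.GalRep.Tate
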